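import Mathlib
import Fermat.Prelude.Def_FreyPackage_EigenformResidualAttachment
import Fermat.Prelude.Def_GaloisRep_Residual

set_option autoImplicit false

open WeierstrassCurve WeierstrassCurve.Affine.Point
open Polynomial

namespace Fermat.Agent.S42Lib

/-- the frozen content of S29 as a proposition -/
def S29Prop : Prop :=
  ∀ {N : ℕ} {g : CuspForm (CongruenceSubgroup.Gamma0 N) 2} (_ : g.IsNormalizedEigenform)
    {p : ℕ} (_ : p.Prime) {k : Type} [Field k] [CharP k p]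
    (φ : integralClosure ℤ ℂ →+* k),
    ∃ ρ : ResidualGaloisRep k, ρ.IsAttachedTo g φ ∧
      ∀ ℓ : ℕ, ℓ.Prime → ¬ ℓ ∣ N * p → ρ.IsUnramifiedAt ℓ

/-- `Q̄` is an algebraic closure of `ℚ` also for the `ℚ`-algebra structure coming from
`DivisionRing.toRatAlgebra` (the one found by instance search). -/
theorem isAlgClosure_rat : IsAlgClosure ℚ (AlgebraicClosure ℚ) := by
  have h : (DivisionRing.toRatAlgebra : Algebra ℚ (AlgebraicClosure ℚ)) =
    AlgebraicClosure.instAlgebra ℚ := Subsingleton.elim _ _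
  rw [h]
  infer_instance

/-- A finite-dimensional intermediate field of `Q̄/ℚ` is contained in a finite Galois one. -/
theorem exists_finite_galois_ge (L : IntermediateField ℚ (AlgebraicClosure ℚ))
    (hL : FiniteDimensional ℚ L) :
    ∃ F : IntermediateField ℚ (AlgebraicClosure ℚ), FiniteDimensional ℚ F ∧ IsGalois ℚ F ∧
      L ≤ F := by
  haveI : IsAlgClosure ℚ (AlgebraicClosure ℚ) := isAlgClosure_rat
  haveI : Normal ℚ (AlgebraicClosure ℚ) := IsAlgClosure.normal ℚ _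
  refine ⟨IntermediateField.normalClosure ℚ L (AlgebraicClosure ℚ), ?_, ?_, ?_⟩
  · infer_instance
  · haveI : Normal ℚ (IntermediateField.normalClosure ℚ L (AlgebraicClosure ℚ)) :=
      normalClosure.normal ℚ L (AlgebraicClosure ℚ)
    exact ⟨⟩
  · exact IntermediateField.le_normalClosure L

theorem mem_ker_restrictNormalHom_fixes {F : IntermediateField ℚ (AlgebraicClosure ℚ)}
    [IsGalois ℚ F] {σ : AlgebraicClosure ℚ ≃ₐ[ℚ] AlgebraicClosure ℚ}
    (hσ : σ ∈ (AlgEquiv.restrictNormalHom (F := ℚ) (K₁ := AlgebraicClosure ℚ) F).ker) :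
    ∀ x ∈ F, σ x = x := by
  intro x hx
  have h1 : AlgEquiv.restrictNormalHom (F := ℚ) (K₁ := AlgebraicClosure ℚ) F σ = 1 := hσ
  have h2 := AlgEquiv.restrictNormal_commutes σ F ⟨x, hx⟩
  have h3 : (σ.restrictNormal F) = 1 := h1
  rw [h3] at h2
  simpa using h2.symm

/-- A prime number in a maximal ideal of `ℤ̄`: the quotient has char `p`. -/
theorem charP_quotient {p : ℕ} (hp : p.Prime) (𝔪 : Ideal (integralClosure ℤ ℂ)) (hm : 𝔪.IsMaximal)
    (hpm : (p : integralClosure ℤ ℂ) ∈ 𝔪) : CharP (integralClosure ℤ ℂ ⧸ 𝔪) p := by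
  have hnt : Nontrivial (integralClosure ℤ ℂ ⧸ 𝔪) := Ideal.Quotient.nontrivial_iff.mpr hm.ne_top
  haveI := Fact.mk hp
  have h0 : (p : integralClosure ℤ ℂ ⧸ 𝔪) = 0 := by
    have := Ideal.Quotient.eq_zero_iff_mem.mpr hpm
    simpa using this
  obtain ⟨q, hq⟩ := CharP.exists (integralClosure ℤ ℂ ⧸ 𝔪)
  have hqp : q ∣ p := (CharP.cast_eq_zero_iff _ q p).mp h0
  rcases (Nat.dvd_prime hp).mp hqp with h | h
  · subst h
    exact absurd (CharP.char_ne_one (integralClosure ℤ ℂ ⧸ 𝔪) 1) (by simp)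
  · subst h; exact hq

theorem trace_det_of_charpoly {k : Type*} [Field k] {V : Type*} [AddCommGroup V] [Module k V]
    [Module.Finite k V] (h2 : Module.finrank k V = 2) (f : Module.End k V) (a d : k)
    (h : LinearMap.charpoly f = X ^ 2 - C a * X + C d) :
    LinearMap.trace k V f = a ∧ LinearMap.det f = d := by
  constructor
  · let b := Module.Free.chooseBasis k V
    rw [LinearMap.trace_eq_matrix_trace k b]
    haveI : Nonempty (Module.Free.ChooseBasisIndex k V) := by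
      rw [← Fintype.card_pos_iff, ← Module.finrank_eq_card_chooseBasisIndex, h2]; norm_num
    rw [Matrix.trace_eq_neg_charpoly_coeff, LinearMap.charpoly_toMatrix, h,
      ← Module.finrank_eq_card_chooseBasisIndex, h2]
    simp
  · rw [LinearMap.det_eq_sign_charpoly_coeff, h, h2]
    simp

/-- S42 from S29 and the finite-level property of the Frey curve's `p`-torsion. -/
theorem s42_of_s29 (h29 : S29Prop) (P : FreyPackage)
    (hE : GaloisFactorsThroughFiniteLevel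
      (galoisRepModuleEnd (K := AlgebraicClosure ℚ) ℚ P.freyCurve P.p)) :
    ∀ M : ℕ, 0 < M → P.EigenformResidualAttachmentAt M := by
  intro M hM g hg 𝔪 hm hpm
  have hpp : P.p.Prime := P.pp
  haveI : Fact P.p.Prime := ⟨hpp⟩
  letI : Field (integralClosure ℤ ℂ ⧸ 𝔪) := Ideal.Quotient.field 𝔪
  haveI : CharP (integralClosure ℤ ℂ ⧸ 𝔪) P.p := charP_quotient hpp 𝔪 hm hpm
  letI : Algebra (ZMod P.p) (integralClosure ℤ ℂ ⧸ 𝔪) := ZMod.algebra _ P.p
  obtain ⟨ρ, hρ, hun⟩ := h29 hg hpp (Ideal.Quotient.mk 𝔪)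
  obtain ⟨L₁, hL₁, h₁⟩ := ρ.factorsThroughFiniteLevel
  obtain ⟨L₂, hL₂, h₂⟩ := hE
  obtain ⟨F, hF, hFG, hLF⟩ := exists_finite_galois_ge (L₁ ⊔ L₂) inferInstance
  haveI : NumberField F := ⟨⟩
  have hne : ∀ ℓ : ℕ, ℓ.Prime → ℓ ≠ P.p → (ℓ : integralClosure ℤ ℂ ⧸ 𝔪) ≠ 0 := by
    intro ℓ hℓ hne h0
    rw [CharP.cast_eq_zero_iff _ P.p] at h0
    exact hne ((Nat.prime_dvd_prime_iff_eq hpp hℓ).mp h0).symm
  refine ⟨integralClosure ℤ ℂ ⧸ 𝔪, inferInstance, inferInstance, ρ.V, inferInstance, inferInstance,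
    ρ.ρ, Ideal.Quotient.mk 𝔪, F, inferInstance, inferInstance, hFG, inferInstance, inferInstance,
    ?_, ρ.finrank_eq, ?_, ?_, ?_⟩
  · rw [Ideal.mk_ker]
  · intro σ hσ
    have hfix := mem_ker_restrictNormalHom_fixes hσ
    refine ⟨?_, ?_⟩
    · exact h₂ σ fun x hx => hfix x (hLF ((le_sup_right : L₂ ≤ L₁ ⊔ L₂) hx))
    · exact h₁ σ fun x hx => hfix x (hLF ((le_sup_left : L₁ ≤ L₁ ⊔ L₂) hx))
  · intro ℓ hℓ hℓM hℓp A hA τ hτ
    obtain ⟨a, ha, hch⟩ := hρ ℓ hℓ hℓM (hne ℓ hℓ hℓp) A hA τ hτ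
    exact ⟨a, ha, (trace_det_of_charpoly ρ.finrank_eq _ _ _ hch).1⟩
  · intro ℓ hℓ hℓM hℓp A hA τ hτ
    obtain ⟨a, ha, hch⟩ := hρ ℓ hℓ hℓM (hne ℓ hℓ hℓp) A hA τ hτ
    exact (trace_det_of_charpoly ρ.finrank_eq _ _ _ hch).2

end Fermat.Agent.S42Lib
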